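/-
Programme T1B (row 38 via S44), brick E-SIDE44 / ELOCM63 (helper63), file 1: KAPPA.

Model curve `Wab a b : Y² = X³ + aX² + bX` over a valued field `(K, v)`, multiplicative reduction
(`H : MultRed v a b α`, helper46's `ESide46/ApproxChar`), `p` a prime with `v p < 1`,
`v b < v p ^ 2`, `ζ₀` a primitive `p`-th root of unity.  `C := E[p] ∩ E₁`.

* `exists_close_root` : for `P ∈ C` there is `k < p` with `v (uc P - ζ₀ ^ k) * v p ≤ v b`;
* `eq_of_close_root`  : two points of `C` close to the same root of unity are equal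
                         (no torsion near `O`: `ESide46.val_le_of_torsion`);
* `card_le_of_subset_C` : a finite set of points of `C` has at most `p` elements.
-/
import Fermat.Agent.T1B.ESide46.Key
import Fermat.Agent.T1B.ESide9.Roots

set_option autoImplicit false
set_option linter.unusedSectionVars false
set_option linter.unusedVariables false

namespace Fermat.Agent.T1B.ELocM63.Kappa

open WeierstrassCurve WeierstrassCurve.Affine Fermat.Agent.S05 Fermat.Agent.T1B.ESide46
  Fermat.Agent.T1B.ESide9

variable {K : Type*} [Field K] [DecidableEq K] {a b α : K}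
variable {Γ₀ : Type*} [LinearOrderedCommGroupWithZero Γ₀] {v : Valuation K Γ₀}
variable {p : ℕ} [hp : Fact p.Prime] {ζ₀ : K}

/-- A point of `C = E[p] ∩ E₁` has `uc` close to a `p`-th root of unity. -/
theorem exists_close_root (H : MultRed v a b α) (hζ : IsPrimitiveRoot ζ₀ p)
    {P : (Wab a b).toAffine.Point} (hP : InE1 v P) (hpP : p • P = 0) :
    ∃ k : ℕ, k < p ∧ v (uc α P - ζ₀ ^ k) * v (p : K) ≤ v b := by
  obtain ⟨-, h2⟩ := uc_nsmul H (InE1.inE0 v hP) p
  rw [hpP, uc_zero] at h2
  obtain ⟨k, hk, hkv⟩ := closest_root v hζ (uc α P)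
  refine ⟨k, hk, hkv.trans ?_⟩
  rw [← Valuation.map_neg, neg_sub]
  exact h2

/-- Two points of `C` close to the same root of unity coincide. -/
theorem eq_of_close_root (H : MultRed v a b α) (hp0 : 0 < v (p : K))
    (hbp : v b < v (p : K) ^ 2) (hp1 : v (p : K) ≤ 1)
    {P P' : (Wab a b).toAffine.Point} (hP : InE1 v P) (hpP : p • P = 0)
    (hP' : InE1 v P') (hpP' : p • P' = 0) {ξ : K}
    (h : v (uc α P - ξ) * v (p : K) ≤ v b) (h' : v (uc α P' - ξ) * v (p : K) ≤ v b) :
    P = P' := by
  by_contra hne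
  have hD0 : P + -P' ≠ 0 := by
    intro h0
    apply hne
    rw [← sub_eq_add_neg, sub_eq_zero] at h0
    exact h0
  have hnP' : InE1 v (-P') := KernelContract.inE1_neg v P' hP'
  have hD1 : InE1 v (P + -P') := KernelContract.inE1_add v H.ha_le H.hb_le _ _ hP hnP'
  have hDp : p • (P + -P') = 0 := by rw [smul_add, smul_neg, hpP, hpP', neg_zero, add_zero]
  have hle := val_le_of_torsion H hD1 hD0 hDp
  obtain ⟨-, hadd⟩ := uc_add H (InE1.inE0 v hP) (InE1.inE0 v hnP')
  have hneg := uc_neg_mul H (InE1.inE0 v hP')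
  have hvn : v (uc α (-P')) = 1 := val_uc H (InE1.inE0 v hnP')
  -- `uc P * uc (-P') - 1 = uc (-P') * (uc P - uc P')`
  have e1 : uc α P * uc α (-P') - 1 = uc α (-P') * ((uc α P - ξ) - (uc α P' - ξ)) := by
    linear_combination hneg
  have h3 : v (uc α P * uc α (-P') - 1) * v (p : K) ≤ v b := by
    rw [e1, map_mul, hvn, one_mul]
    calc v ((uc α P - ξ) - (uc α P' - ξ)) * v (p : K)
        ≤ max (v (uc α P - ξ)) (v (uc α P' - ξ)) * v (p : K) := by
          gcongr
          exact Valuation.map_sub v _ _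
      _ ≤ v b := by
          rcases le_total (v (uc α P - ξ)) (v (uc α P' - ξ)) with hle' | hle'
          · rw [max_eq_right hle']; exact h'
          · rw [max_eq_left hle']; exact h
  have e2 : uc α (P + -P') - 1 =
      (uc α (P + -P') - uc α P * uc α (-P')) + (uc α P * uc α (-P') - 1) := by ring
  have h4 : v (uc α (P + -P') - 1) * v (p : K) ≤ v b := by
    rw [e2]
    calc v ((uc α (P + -P') - uc α P * uc α (-P')) + (uc α P * uc α (-P') - 1)) * v (p : K)
        ≤ max (v (uc α (P + -P') - uc α P * uc α (-P'))) (v (uc α P * uc α (-P') - 1))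
            * v (p : K) := by
          gcongr
          exact Valuation.map_add v _ _
      _ ≤ v b := by
          rcases le_total (v (uc α (P + -P') - uc α P * uc α (-P')))
            (v (uc α P * uc α (-P') - 1)) with hle' | hle'
          · rw [max_eq_right hle']; exact h3
          · rw [max_eq_left hle']
            calc v (uc α (P + -P') - uc α P * uc α (-P')) * v (p : K)
                ≤ v b * 1 := by gcongr
              _ = v b := mul_one _
  have h5 : v (p : K) ^ 2 ≤ v b := by
    calc v (p : K) ^ 2 = v (p : K) * v (p : K) := sq _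
      _ ≤ v (uc α (P + -P') - 1) * v (p : K) := by gcongr
      _ ≤ v b := h4
  exact absurd hbp (not_lt.mpr h5)

/-- **`|C| ≤ p`**: a finite set of `p`-torsion points of `E₁` has at most `p` elements. -/
theorem card_le_of_subset_C (H : MultRed v a b α) (hζ : IsPrimitiveRoot ζ₀ p)
    (hp0 : 0 < v (p : K)) (hbp : v b < v (p : K) ^ 2) (hp1 : v (p : K) ≤ 1)
    (S : Finset (Wab a b).toAffine.Point)
    (hS : ∀ P ∈ S, InE1 v P ∧ p • P = 0) : S.card ≤ p := by
  classical
  have hex : ∀ P : (Wab a b).toAffine.Point, ∃ k : ℕ, P ∈ S →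
      (k < p ∧ v (uc α P - ζ₀ ^ k) * v (p : K) ≤ v b) := by
    intro P
    by_cases hPS : P ∈ S
    · obtain ⟨k, hk, hkv⟩ := exists_close_root H hζ (hS P hPS).1 (hS P hPS).2
      exact ⟨k, fun _ => ⟨hk, hkv⟩⟩
    · exact ⟨0, fun h => absurd h hPS⟩
  choose κ hκ using hex
  have hmaps : ∀ P ∈ S, κ P ∈ Finset.range p := fun P hPS =>
    Finset.mem_range.2 (hκ P hPS).1
  have hinj : Set.InjOn κ S := by
    intro P hPS P' hPS' hkk
    have h1 := (hκ P hPS).2
    have h2 := (hκ P' hPS').2
    rw [← hkk] at h2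
    exact eq_of_close_root H hp0 hbp hp1 (hS P hPS).1 (hS P hPS).2 (hS P' hPS').1
      (hS P' hPS').2 h1 h2
  have := Finset.card_le_card_of_injOn κ hmaps hinj
  rwa [Finset.card_range] at this

end Fermat.Agent.T1B.ELocM63.Kappa
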