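/-
Programme T1B (row 38 via S44), brick E-SIDE44 / ELOCM63 (helper63), file 2: GALOIS.

`σ : K →+* K` "inertia-like" for the model curve `Wab a b` over the valued field `(K, v)`:
`v ∘ σ = v`, `σ x ≡ x` for integral `x`, `σ a = a`, `σ b = b` (`IsInert`).  Then
* `map_alpha`     : `σ α = α` (`α ^ 2 = a`, `2 α` a unit);
* `actW σ`        : the coordinatewise action on the points of `Wab a b` (additive);
* `uc_actW`       : `uc (σ P) = σ (uc P)`;  `inE1_actW`, `isAlpha_map`;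
* `exists_chi`    : if `P₀` generates `C = E[p] ∩ E₁` and `ζ` is the `p`-th root of unity closest to
                    `uc P₀` then `σ P₀ = χ • P₀` and `σ ζ = ζ ^ χ` (the character on `C` is cyclotomic);
* `root_ne_one`   : that `ζ` is not `1`;
* `exists_c`      : `σ Q = Q + c • P₀` for `Q ∈ E[p]` (helper48's `sub_inE1'`).
-/
import Fermat.Agent.T1B.ELocM63.Kappa
import Fermat.Agent.T1.ELoc63.Points
import Fermat.Agent.T1B.ESide48.SubInE1

set_option autoImplicit false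
set_option linter.unusedSectionVars false
set_option linter.unusedVariables false

namespace Fermat.Agent.T1B.ELocM63.Galois

open WeierstrassCurve WeierstrassCurve.Affine Fermat.Agent.S05 Fermat.Agent.S05.CompH3
  Fermat.Agent.T1B.ESide46 Fermat.Agent.T1B.ESide9 Fermat.Agent.RedTors.RedHom
  Fermat.Agent.T1.ELoc63.Points

variable {K : Type*} [Field K] [DecidableEq K] {a b α : K}
variable {Γ₀ : Type*} [LinearOrderedCommGroupWithZero Γ₀] {v : Valuation K Γ₀}

/-- "Inertia-like" endomorphisms for the model curve `Wab a b`. -/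
structure IsInert (v : Valuation K Γ₀) (a b : K) (σ : K →+* K) : Prop where
  val : ∀ x, v (σ x) = v x
  res : ∀ x, v x ≤ 1 → v (σ x - x) < 1
  map_a : σ a = a
  map_b : σ b = b

variable {σ : K →+* K}

theorem IsInert.map_alpha (hσ : IsInert v a b σ) (H : MultRed v a b α) : σ α = α := by
  have h1 : (σ α) ^ 2 = α ^ 2 := by rw [← map_pow, H.hα, hσ.map_a]
  have h2 : (σ α - α) * (σ α + α) = 0 := by linear_combination h1
  rcases mul_eq_zero.mp h2 with h | h
  · exact sub_eq_zero.mp h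
  · exfalso
    have h3 := hσ.res α (le_of_eq H.hαv)
    have e : σ α - α = -(2 * α) := by linear_combination h
    rw [e, Valuation.map_neg, map_mul, H.h2, H.hαv, one_mul] at h3
    exact lt_irrefl _ h3

theorem IsInert.map_curve (hσ : IsInert v a b σ) : (Wab a b).map σ = Wab a b := by
  ext <;> simp [Wab, WeierstrassCurve.map, hσ.map_a, hσ.map_b]

/-- The coordinatewise action on points. -/
def actW (hσ : IsInert v a b σ) : (Wab a b).toAffine.Point →+ (Wab a b).toAffine.Point :=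
  mapPtHom σ hσ.map_curve

theorem actW_zero (hσ : IsInert v a b σ) : actW hσ (0 : (Wab a b).toAffine.Point) = 0 := rfl

theorem actW_some (hσ : IsInert v a b σ) {x y : K} (h : (Wab a b).toAffine.Nonsingular x y) :
    ∃ h' : (Wab a b).toAffine.Nonsingular (σ x) (σ y),
      actW hσ (Point.some x y h) = Point.some _ _ h' :=
  mapPt_some σ hσ.map_curve h

theorem actW_eq_zero_iff (hσ : IsInert v a b σ) {P : (Wab a b).toAffine.Point} :
    actW hσ P = 0 ↔ P = 0 := by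
  rcases P with _ | ⟨x, y, h⟩
  · exact ⟨fun _ => rfl, fun _ => rfl⟩
  · obtain ⟨h', e⟩ := actW_some hσ h
    rw [e]
    exact ⟨fun h0 => absurd h0 (Point.some_ne_zero h'), fun h0 => absurd h0 (Point.some_ne_zero h)⟩

theorem uc_actW (hσ : IsInert v a b σ) (H : MultRed v a b α) (P : (Wab a b).toAffine.Point) :
    uc α (actW hσ P) = σ (uc α P) := by
  rcases P with _ | ⟨x, y, h⟩
  · show uc α (0 : (Wab a b).toAffine.Point) = σ (uc α (0 : (Wab a b).toAffine.Point))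
    rw [uc_zero, map_one]
  · obtain ⟨h', e⟩ := actW_some hσ h
    rw [e, uc_some, uc_some, map_div₀, map_sub, map_add, map_mul, hσ.map_alpha H]

theorem inE1_actW (hσ : IsInert v a b σ) {P : (Wab a b).toAffine.Point} :
    InE1 v (actW hσ P) ↔ InE1 v P := by
  rcases P with _ | ⟨x, y, h⟩
  · exact Iff.rfl
  · obtain ⟨h', e⟩ := actW_some hσ h
    rw [e, InE1_some, InE1_some, hσ.val]

theorem isAlpha_map (hσ : IsInert v a b σ) (H : MultRed v a b α) {x s : K}
    (hA : IsAlpha v b α x s) : IsAlpha v b α (σ x) (σ s) := by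
  obtain ⟨h1, h2, h3⟩ := hA
  refine ⟨by rwa [hσ.val], by rwa [hσ.val], ?_⟩
  have : σ s - α = σ (s - α) := by rw [map_sub, hσ.map_alpha H]
  rw [this, hσ.val]
  exact h3

variable {p : ℕ} [hp : Fact p.Prime]

/-- The root of unity closest to `uc P₀`, `P₀ ∈ C ∖ 0`, is not `1`. -/
theorem root_ne_one (H : MultRed v a b α) (hp0 : 0 < v (p : K)) (hbp : v b < v (p : K) ^ 2)
    {P₀ : (Wab a b).toAffine.Point} (hP₀ : InE1 v P₀) (hP₀0 : P₀ ≠ 0) (hP₀p : p • P₀ = 0)
    {ζ : K} (hζc : v (uc α P₀ - ζ) * v (p : K) ≤ v b) : ζ ≠ 1 := by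
  rintro rfl
  have hle := val_le_of_torsion H hP₀ hP₀0 hP₀p
  have : v (p : K) ^ 2 ≤ v b := by
    calc v (p : K) ^ 2 = v (p : K) * v (p : K) := sq _
      _ ≤ v (uc α P₀ - 1) * v (p : K) := by gcongr
      _ ≤ v b := hζc
  exact absurd hbp (not_lt.mpr this)

/-- Two `p`-th roots of unity at distance `< v p` coincide. -/
theorem root_eq_of_close {ζ₀ : K} (hζ₀ : IsPrimitiveRoot ζ₀ p) (hp1 : v (p : K) < 1)
    {ξ ξ' : K} (h : ξ ^ p = 1) (h' : ξ' ^ p = 1) (hlt : v (ξ - ξ') < v (p : K)) : ξ = ξ' := by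
  by_contra hne
  have h1 := val_sub_pow_eq v hζ₀ h h' hne
  have hp2 : 1 ≤ p - 1 := by have := hp.out.two_le; omega
  have h2 : v (ξ - ξ') ^ (p - 1) ≤ v (ξ - ξ') ^ 1 :=
    pow_le_pow_right_of_le_one' (le_of_lt (lt_trans hlt hp1)) hp2
  rw [h1, pow_one] at h2
  exact absurd hlt (not_lt.mpr h2)

/-- **The character on `C` is cyclotomic.** -/
theorem exists_chi (hσ : IsInert v a b σ) (H : MultRed v a b α) (hp0 : 0 < v (p : K))
    (hp1 : v (p : K) < 1) (hbp : v b < v (p : K) ^ 2)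
    {P₀ : (Wab a b).toAffine.Point} (hP₀ : InE1 v P₀) (hP₀0 : P₀ ≠ 0) (hP₀p : p • P₀ = 0)
    (hgen : ∀ c : (Wab a b).toAffine.Point, p • c = 0 → InE1 v c → ∃ k : ℕ, k < p ∧ c = k • P₀)
    {ζ : K} (hζp : ζ ^ p = 1) (hζc : v (uc α P₀ - ζ) * v (p : K) ≤ v b) :
    ∃ k : ℕ, 0 < k ∧ k < p ∧ actW hσ P₀ = k • P₀ ∧ σ ζ = ζ ^ k := by
  have hζ1 : ζ ≠ 1 := root_ne_one H hp0 hbp hP₀ hP₀0 hP₀p hζc
  have hζprim : IsPrimitiveRoot ζ p := by
    have h := IsPrimitiveRoot.orderOf ζ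
    rwa [orderOf_eq_prime hζp hζ1] at h
  -- `σ P₀ ∈ C`
  have h1 : InE1 v (actW hσ P₀) := (inE1_actW hσ).mpr hP₀
  have h2 : p • actW hσ P₀ = 0 := by rw [← map_nsmul, hP₀p, map_zero]
  obtain ⟨k, hkp, hk⟩ := hgen _ h2 h1
  have hk0 : 0 < k := by
    rcases Nat.eq_zero_or_pos k with rfl | h
    · rw [zero_smul, actW_eq_zero_iff] at hk
      exact absurd hk hP₀0
    · exact h
  refine ⟨k, hk0, hkp, hk, ?_⟩
  have hE0 : InE0 v P₀ := InE1.inE0 v hP₀
  have hvuc : v (uc α P₀) = 1 := val_uc H hE0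
  have hvζ : v ζ = 1 := val_eq_one_of_pow_eq_one v hp.out.ne_zero hζp
  -- `uc (k • P₀) = σ (uc P₀)` is close to `σ ζ`
  have e1 : uc α (k • P₀) = σ (uc α P₀) := by rw [← hk, uc_actW hσ H]
  have c1 : v (uc α (k • P₀) - σ ζ) * v (p : K) ≤ v b := by
    rw [e1, ← map_sub, hσ.val]
    exact hζc
  -- and close to `ζ ^ k`
  obtain ⟨-, c2⟩ := uc_nsmul H hE0 k
  have c3 : v (uc α P₀ ^ k - ζ ^ k) ≤ v (uc α P₀ - ζ) :=
    val_pow_sub_pow_le (le_of_eq hvuc) (le_of_eq hvζ) k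
  have hpk : v (p : K) ≤ 1 := le_of_lt hp1
  have c4 : v (σ ζ - ζ ^ k) * v (p : K) ≤ v b := by
    have e : σ ζ - ζ ^ k = -(uc α (k • P₀) - σ ζ) +
        ((uc α (k • P₀) - uc α P₀ ^ k) + (uc α P₀ ^ k - ζ ^ k)) := by ring
    rw [e]
    have m1 : v (-(uc α (k • P₀) - σ ζ)) * v (p : K) ≤ v b := by
      rw [Valuation.map_neg]; exact c1
    have m2 : v (uc α (k • P₀) - uc α P₀ ^ k) * v (p : K) ≤ v b := by
      calc v (uc α (k • P₀) - uc α P₀ ^ k) * v (p : K) ≤ v b * 1 := by gcongr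
        _ = v b := mul_one _
    have m3 : v (uc α P₀ ^ k - ζ ^ k) * v (p : K) ≤ v b := by
      calc v (uc α P₀ ^ k - ζ ^ k) * v (p : K) ≤ v (uc α P₀ - ζ) * v (p : K) := by gcongr
        _ ≤ v b := hζc
    have m23 : v ((uc α (k • P₀) - uc α P₀ ^ k) + (uc α P₀ ^ k - ζ ^ k)) * v (p : K) ≤ v b := by
      rcases le_total (v (uc α (k • P₀) - uc α P₀ ^ k)) (v (uc α P₀ ^ k - ζ ^ k)) with hle | hle
      · exact le_trans (by gcongr; exact (Valuation.map_add v _ _).trans (max_le hle le_rfl)) m3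
      · exact le_trans (by gcongr; exact (Valuation.map_add v _ _).trans (max_le le_rfl hle)) m2
    rcases le_total (v (-(uc α (k • P₀) - σ ζ)))
        (v ((uc α (k • P₀) - uc α P₀ ^ k) + (uc α P₀ ^ k - ζ ^ k))) with hle | hle
    · exact le_trans (by gcongr; exact (Valuation.map_add v _ _).trans (max_le hle le_rfl)) m23
    · exact le_trans (by gcongr; exact (Valuation.map_add v _ _).trans (max_le le_rfl hle)) m1
  have hlt : v (σ ζ - ζ ^ k) < v (p : K) := by
    by_contra hge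
    rw [not_lt] at hge
    have : v (p : K) ^ 2 ≤ v b := by
      calc v (p : K) ^ 2 = v (p : K) * v (p : K) := sq _
        _ ≤ v (σ ζ - ζ ^ k) * v (p : K) := by gcongr
        _ ≤ v b := c4
    exact absurd hbp (not_lt.mpr this)
  have r1 : (σ ζ) ^ p = 1 := by rw [← map_pow, hζp, map_one]
  have r2 : (ζ ^ k) ^ p = 1 := by rw [← pow_mul, mul_comm, pow_mul, hζp, one_pow]
  exact root_eq_of_close hζprim hp1 r1 r2 hlt

/-- **Inertia moves the `p`-torsion points by elements of `C`.** -/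
theorem exists_c (hσ : IsInert v a b σ) (H : MultRed v a b α) {h₀ : K} (hσh : σ h₀ = h₀)
    (hbh : v b = v h₀ ^ p) {P₀ : (Wab a b).toAffine.Point}
    (hgen : ∀ c : (Wab a b).toAffine.Point, p • c = 0 → InE1 v c → ∃ k : ℕ, k < p ∧ c = k • P₀)
    {Q : (Wab a b).toAffine.Point} (hQp : p • Q = 0) :
    ∃ c : ℕ, c < p ∧ actW hσ Q = Q + c • P₀ := by
  have hsub : InE1 v (actW hσ Q - Q) := by
    rcases Q with _ | ⟨x, y, h⟩
    · show InE1 v (actW hσ (0 : (Wab a b).toAffine.Point) - 0)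
      rw [map_zero, sub_zero]
      trivial
    · obtain ⟨h', e⟩ := actW_some hσ h
      rw [e]
      exact Fermat.Agent.T1B.ESide48.sub_inE1' v H.h2 H.ha H.hb H.hb0 α H.hα σ hσ.val hσ.res
        hσ.map_b h₀ hσh hp.out hbh h h' hQp
  have hp0 : p • (actW hσ Q - Q) = 0 := by
    rw [smul_sub, ← map_nsmul, hQp, map_zero, sub_zero]
  obtain ⟨c, hc, hcc⟩ := hgen _ hp0 hsub
  exact ⟨c, hc, by rw [← hcc]; abel⟩

end Fermat.Agent.T1B.ELocM63.Galois
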