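/-
Programme T1B (row 38 via S44), brick E-SIDE44 / ELOCM63 (helper63), file 3: PEU on the model curve.

Generic valued field `(K, v)`, model curve `Wab a b` with multiplicative reduction
(`H : MultRed v a b α`), `p` prime, `0 < v p < 1`, `v b < v p ^ 2`.

`Basis v a b α p ρ P₀ Q` packages the STRUCTURE of `E[p]` (output of the counting argument):
`P₀` generates `C = E[p] ∩ E₁`, `Q ∈ E[p]` lies on the `α`-branch at radius `v x(Q) = ρ`, and
`(Q, P₀)` spans `E[p]`.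

`peu_wab` : if moreover `v b ≤ ρ ^ 2 * v p` then there are a primitive `p`-th root of unity `ζ` and
`R ∈ K` with `v R = ρ * v p` such that every inertia-like `σ` (fixing `h₀`, `v b = v h₀ ^ p`) acts by
  `σ ζ = ζ ^ χ`,  `σ P₀ = χ • P₀`,  `σ Q = Q + c • P₀`,  `σ R = ζ ^ c * R`.
(`R` = Lagrange resolvent of `k ↦ uc (Q + k • P₀)`: helper46's `Key.key`, helper9's `Roots`.)
-/
import Fermat.Agent.T1B.ELocM63.Galois

set_option autoImplicit false
set_option linter.unusedSectionVars false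
set_option linter.unusedVariables false

namespace Fermat.Agent.T1B.ELocM63.PeuWab

open WeierstrassCurve WeierstrassCurve.Affine Fermat.Agent.S05 Fermat.Agent.S05.CompH3
  Fermat.Agent.T1B.ESide46 Fermat.Agent.T1B.ESide9 Fermat.Agent.T1B.ELocM63.Kappa
  Fermat.Agent.T1B.ELocM63.Galois

variable {K : Type*} [Field K] [DecidableEq K] {a b α : K}
variable {Γ₀ : Type*} [LinearOrderedCommGroupWithZero Γ₀] {v : Valuation K Γ₀}

/-- The structure of `E[p]` on the model curve. -/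
structure Basis (v : Valuation K Γ₀) (a b α : K) (p : ℕ) (ρ : Γ₀)
    (P₀ Q : (Wab a b).toAffine.Point) : Prop where
  P₀_ne : P₀ ≠ 0
  P₀_tors : p • P₀ = 0
  P₀_E1 : InE1 v P₀
  Q_tors : p • Q = 0
  Q_alpha : ∃ (x s : K) (h : (Wab a b).toAffine.Nonsingular x (x * s)),
    Q = Point.some x (x * s) h ∧ IsAlpha v b α x s ∧ v x = ρ
  gen : ∀ c : (Wab a b).toAffine.Point, p • c = 0 → InE1 v c → ∃ k : ℕ, k < p ∧ c = k • P₀
  span : ∀ T : (Wab a b).toAffine.Point, p • T = 0 →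
    ∃ i j : ℕ, i < p ∧ j < p ∧ T = i • Q + j • P₀

variable {p : ℕ} [hp : Fact p.Prime]

/-- multiples of a `p`-torsion point only depend on the exponent mod `p`. -/
theorem val_natCast_nsmul {G : Type*} [AddCommGroup G] {P : G} (hP : p • P = 0) (n : ℕ) :
    ((n : ZMod p)).val • P = n • P := by
  rw [ZMod.val_natCast]
  conv_rhs => rw [← Nat.mod_add_div n p, add_smul, mul_comm, mul_smul, hP, smul_zero, add_zero]

theorem nsmul_eq_zero_of_lt {G : Type*} [AddCommGroup G] {P : G} (hP : p • P = 0) (hP0 : P ≠ 0)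
    {k : ℕ} (hk : k < p) (h : k • P = 0) : k = 0 := by
  have hord : addOrderOf P = p := addOrderOf_eq_prime hP hP0
  have hdvd : p ∣ k := by
    rw [← hord]
    exact addOrderOf_dvd_of_nsmul_eq_zero h
  exact Nat.eq_zero_of_dvd_of_lt hdvd hk

theorem peu_wab (H : MultRed v a b α) (hp0 : 0 < v (p : K)) (hp1 : v (p : K) < 1)
    (hbp : v b < v (p : K) ^ 2) {ζ₀ : K} (hζ₀ : IsPrimitiveRoot ζ₀ p)
    {ρ : Γ₀} (hb4 : v b ≤ ρ ^ 2 * v (p : K)) {h₀ : K} (hbh : v b = v h₀ ^ p)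
    {P₀ Q : (Wab a b).toAffine.Point} (B : Basis v a b α p ρ P₀ Q) :
    ∃ ζ R : K, IsPrimitiveRoot ζ p ∧ v R = ρ * v (p : K) ∧
      ∀ (σ : K →+* K) (hσ : IsInert v a b σ), σ h₀ = h₀ →
        ∃ χ c : ℕ, 0 < χ ∧ χ < p ∧ c < p ∧ σ ζ = ζ ^ χ ∧ actW hσ P₀ = χ • P₀ ∧
          actW hσ Q = Q + c • P₀ ∧ σ R = ζ ^ c * R := by
  obtain ⟨k₀, hk₀, hclose⟩ := exists_close_root H hζ₀ B.P₀_E1 B.P₀_tors
  set ζ := ζ₀ ^ k₀ with hζdef
  have hζp : ζ ^ p = 1 := by
    rw [hζdef, ← pow_mul, mul_comm, pow_mul, hζ₀.pow_eq_one, one_pow]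
  have hζ1 : ζ ≠ 1 := root_ne_one H hp0 hbp B.P₀_E1 B.P₀_ne B.P₀_tors hclose
  have hζprim : IsPrimitiveRoot ζ p := by
    have h := IsPrimitiveRoot.orderOf ζ
    rwa [orderOf_eq_prime hζp hζ1] at h
  have hvζ : v ζ = 1 := val_eq_one_of_pow_eq_one v hp.out.ne_zero hζp
  obtain ⟨x₁, s₁, h₁, hQ, hA, hxρ⟩ := B.Q_alpha
  have hb4' : v b ≤ v x₁ ^ 2 * v (p : K) := by rw [hxρ]; exact hb4
  -- the function `F`
  set F : ZMod p → K := fun k => uc α (Q + k.val • P₀) with hF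
  -- `v (uc Q) = v x₁`
  have hucQ : v (uc α Q) = v x₁ := by
    have h1 : (1 : ℕ) • P₀ ≠ 0 := by rw [one_smul]; exact B.P₀_ne
    obtain ⟨x₃, s₃, h₃, -, -, -, hu, -⟩ := key H hp0 hp1 h₁ hA hb4' hbp B.P₀_E1 hvζ hclose 1 h1
    rw [hQ]; exact hu
  have hx₁pos : 0 < v x₁ := lt_of_le_of_lt zero_le hA.1
  have hest : ∀ k : ZMod p, v (F k - uc α Q * ζ ^ k.val) < v (uc α Q) * v (p : K) := by
    intro k
    by_cases hk : k.val • P₀ = 0
    · have hk0 : k.val = 0 := nsmul_eq_zero_of_lt B.P₀_tors B.P₀_ne (ZMod.val_lt k) hk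
      simp only [hF]
      rw [hk0, zero_smul, add_zero, pow_zero, mul_one, sub_self, map_zero, hucQ]
      exact mul_pos hx₁pos hp0
    · obtain ⟨x₃, s₃, h₃, e₃, -, -, -, hlt⟩ :=
        key H hp0 hp1 h₁ hA hb4' hbp B.P₀_E1 hvζ hclose k.val hk
      simp only [hF]
      rw [hucQ, hQ, e₃]
      exact hlt
  refine ⟨ζ, ∑ k : ZMod p, ζ ^ ((p - k.val) % p) * F k, hζprim, ?_, ?_⟩
  · rw [val_resolvent v hζp F (uc α Q) hest, hucQ, hxρ]
  · intro σ hσ hσh
    obtain ⟨χ, hχ0, hχp, hχP, hχζ⟩ := exists_chi hσ H hp0 hp1 hbp B.P₀_E1 B.P₀_ne B.P₀_tors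
      B.gen hζp hclose
    obtain ⟨c, hcp, hcQ⟩ := exists_c hσ H hσh hbh B.gen B.Q_tors
    refine ⟨χ, c, hχ0, hχp, hcp, hχζ, hχP, hcQ, ?_⟩
    have hχne : (χ : ZMod p) ≠ 0 := by
      rw [Ne, ZMod.natCast_eq_zero_iff]
      intro hdvd
      exact absurd (Nat.le_of_dvd hχ0 hdvd) (not_le.mpr hχp)
    have hχval : (χ : ZMod p).val = χ := ZMod.val_natCast_of_lt hχp
    have hcval : (c : ZMod p).val = c := ZMod.val_natCast_of_lt hcp
    have hσF : ∀ k : ZMod p, σ (F k) = F ((c : ZMod p) + (χ : ZMod p) * k) := by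
      intro k
      simp only [hF]
      rw [← uc_actW hσ H, map_add, map_nsmul, hcQ, hχP]
      congr 1
      have e : ((c : ZMod p) + (χ : ZMod p) * k) = ((c + χ * k.val : ℕ) : ZMod p) := by
        push_cast
        rw [ZMod.natCast_zmod_val]
      rw [e, val_natCast_nsmul B.P₀_tors, add_smul, add_assoc, mul_comm, mul_smul]
    have := resolvent_equivariant hζp F σ (χ : ZMod p) (c : ZMod p) hχne
      (by rw [hχval]; exact hχζ) hσF
    rw [hcval] at this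
    exact this

end Fermat.Agent.T1B.ELocM63.PeuWab
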