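/-
Programme T1B (row 38 via S44), brick E-SIDE44 / ELOCM63 (helper63), file 4: BASIS.

The structure of `E[p]` on the model curve `Wab a b` (multiplicative reduction, residue characteristic
`p`, `K` algebraically closed of characteristic `0`, `v b = ρ₀ ^ p`, `v b < v p ^ 2`):

`exists_basis` : there are `P₀, Q` with `PeuWab.Basis v a b α p (ρ₀ ^ 2) P₀ Q`, i.e. `P₀` generates
`C = E[p] ∩ E₁`, `Q ∈ E[p]` lies on the `α`-branch at radius `v x(Q) = ρ₀ ^ 2`, and `Q, P₀` span `E[p]`.

Proof: helper46's `CStruct`/`CCount` (`C` is cyclic of order `≤ p`, non-trivial; two `p`-torsion points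
with the same component value differ by an element of `C`; `cval P ^ p = v b ^ (2k)`, `k < p`), and
counting: the `p²` points of `E[p]` are distributed over `p` component values with at most `p` points
each, so every value `v b ^ (2k/p)` is taken; `k = 1` gives `Q`.
-/
import Fermat.Agent.T1B.ELocM63.PeuWab
import Fermat.Agent.T1B.ESide46.CCount

set_option autoImplicit false
set_option linter.unusedSectionVars false
set_option linter.unusedVariables false
set_option linter.style.haveILetI false

namespace Fermat.Agent.T1B.ELocM63.Basis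

open WeierstrassCurve WeierstrassCurve.Affine Fermat.Agent.S05 Fermat.Agent.S05.CompH3
  Fermat.Agent.T1B.ESide46 Fermat.Agent.T1B.ESide9 Fermat.Agent.T1B.ELocM63.PeuWab

variable {K : Type*} [Field K] [DecidableEq K] {a b α : K}
variable {Γ₀ : Type*} [LinearOrderedCommGroupWithZero Γ₀] {v : Valuation K Γ₀}
variable {p : ℕ} [hp : Fact p.Prime]

/-- A point with component value strictly between `v b` and `1` lies on the `α`-branch. -/
theorem isAlpha_of_cval (H : MultRed v a b α) {P : (Wab a b).toAffine.Point} {ρ : Γ₀}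
    (hc : cval v α P = ρ) (hρb : v b < ρ) (hρ1 : ρ < 1) :
    ∃ (x s : K) (h : (Wab a b).toAffine.Nonsingular x (x * s)),
      P = Point.some x (x * s) h ∧ IsAlpha v b α x s ∧ v x = ρ := by
  have hb0 := val_b_pos H
  rcases P with _ | ⟨x, y, h⟩
  · exfalso
    change (1 : Γ₀) = ρ at hc
    rw [← hc] at hρ1
    exact lt_irrefl _ hρ1
  · by_cases h1 : 1 ≤ v x
    · exfalso
      simp only [cval, if_pos h1] at hc
      rw [← hc] at hρ1
      exact lt_irrefl _ hρ1
    by_cases h2 : v x ≤ v b
    · exfalso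
      simp only [cval, if_neg h1, if_pos h2] at hc
      rw [← hc] at hρb
      exact lt_irrefl _ hρb
    have hx0 : x ≠ 0 := by
      rintro rfl
      rw [map_zero] at h2
      exact h2 zero_le
    by_cases h3 : v (y / x - α) < 1
    · simp only [cval, if_neg h1, if_neg h2, if_pos h3] at hc
      obtain ⟨h', e⟩ := some_eq_xs h hx0
      exact ⟨x, y / x, h', e, ⟨not_le.mp h2, not_le.mp h1, h3⟩, hc⟩
    · exfalso
      simp only [cval, if_neg h1, if_neg h2, if_neg h3] at hc
      have hxpos : 0 < v x := lt_trans hb0 (not_le.mp h2)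
      have : v b ^ 2 / v x < v b := by
        rw [div_lt_iff₀ hxpos, sq]
        exact mul_lt_mul_of_pos_left (not_le.mp h2) hb0
      rw [hc] at this
      exact absurd hρb (not_lt.mpr this.le)

/-- In a `ZMod p`-vector space with `p²` elements, two independent vectors span. -/
theorem exists_combination {V : Type*} [AddCommGroup V] [Module (ZMod p) V] [Finite V]
    (hcard : Nat.card V = p ^ 2) {x y : V} (hy : y ≠ 0) (hx : ∀ c : ZMod p, x ≠ c • y) (z : V) :
    ∃ i j : ZMod p, z = i • x + j • y := by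
  have : Fintype V := Fintype.ofFinite _
  have hli : LinearIndependent (ZMod p) ![x, y] := by
    rw [LinearIndependent.pair_iff]
    intro s t hst
    by_cases hs : s = 0
    · refine ⟨hs, ?_⟩
      rw [hs, zero_smul, zero_add] at hst
      by_contra ht
      apply hy
      calc y = t⁻¹ • (t • y) := by rw [smul_smul, inv_mul_cancel₀ ht, one_smul]
        _ = 0 := by rw [hst, smul_zero]
    · exfalso
      apply hx (-(s⁻¹ * t))
      have h2 : s • x = -(t • y) := eq_neg_of_add_eq_zero_left hst
      calc x = s⁻¹ • (s • x) := by rw [smul_smul, inv_mul_cancel₀ hs, one_smul]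
        _ = (-(s⁻¹ * t)) • y := by rw [h2, smul_neg, smul_smul, neg_smul]
  have hfr : Module.finrank (ZMod p) V = 2 := by
    have h1 := Module.card_eq_pow_finrank (K := ZMod p) (V := V)
    rw [ZMod.card, ← Nat.card_eq_fintype_card, hcard] at h1
    exact (Nat.pow_right_injective hp.out.two_le h1).symm
  haveI : FiniteDimensional (ZMod p) V := Module.Finite.of_finite
  have h1 := hli.span_eq_top_of_card_eq_finrank' (by rw [Fintype.card_fin, hfr])
  have hm : z ∈ Submodule.span (ZMod p) (Set.range ![x, y]) := by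
    rw [h1]; exact Submodule.mem_top
  rw [Matrix.range_cons, Matrix.range_cons, Matrix.range_empty, Set.union_empty,
    Set.singleton_union, Submodule.mem_span_pair] at hm
  obtain ⟨i, j, hij⟩ := hm
  exact ⟨i, j, hij.symm⟩

theorem exists_basis [IsAlgClosed K] [CharZero K] (H : MultRed v a b α)
    (hp0 : 0 < v (p : K)) (hp1 : v (p : K) < 1) (hbp : v b < v (p : K) ^ 2)
    {ρ₀ : Γ₀} (hρ : v b = ρ₀ ^ p) :
    ∃ P₀ Q : (Wab a b).toAffine.Point, Basis v a b α p (ρ₀ ^ 2) P₀ Q := by
  classical
  have hodd := odd_of_multRed H hp1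
  have hp2 : 2 < p := by
    have h2 := hp.out.two_le
    rcases hodd with ⟨m, hm⟩
    omega
  have hpK : (p : K) ≠ 0 := Nat.cast_ne_zero.mpr hp.out.ne_zero
  have hb0 := val_b_pos H
  -- a primitive root of unity
  obtain ⟨z₀, hz₀⟩ : ∃ z₀ : K, IsPrimitiveRoot z₀ p := by
    haveI : NeZero (p : K) := ⟨hpK⟩
    exact HasEnoughRootsOfUnity.exists_primitiveRoot K p
  -- `P₀`
  obtain ⟨P₀, hP₀0, hP₀p, hP₀E⟩ := exists_ne_zero_inE1 (α := α) H hp1
  have hgen : ∀ c : (Wab a b).toAffine.Point, p • c = 0 → InE1 v c →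
      ∃ k : ℕ, k < p ∧ c = k • P₀ := fun c hc hcE =>
    exists_nsmul_eq H hz₀ hp0 hp1 hbp hP₀E hP₀p hP₀0 hcE hc
  -- the torsion subgroup
  set T := Submodule.torsionBy ℤ (Wab a b).toAffine.Point (p : ℤ) with hT
  have hfin : Finite T :=
    Fermat.Agent.DivPoly.CountFinal.finite_torsionBy (W := (Wab a b).toAffine) hodd hpK
  have hcard : Nat.card T = p ^ 2 :=
    Fermat.Agent.DivPoly.CardEq29.card_torsionBy_eq (W := (Wab a b).toAffine)
      (Wab_Δ_ne_zero H) hodd
  have : Fintype T := Fintype.ofFinite _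
  have hmem : ∀ P : T, p • (P : (Wab a b).toAffine.Point) = 0 := by
    intro P
    have := P.2
    rw [Submodule.mem_torsionBy_iff, natCast_zsmul] at this
    exact this
  have hmemT : ∀ P : (Wab a b).toAffine.Point, p • P = 0 → P ∈ T := fun P hP => by
    rw [Submodule.mem_torsionBy_iff, natCast_zsmul]; exact hP
  -- the exponent map
  have hex : ∀ P : T, ∃ k : Fin p,
      cval v α (P : (Wab a b).toAffine.Point) ^ p = v b ^ (2 * (k : ℕ)) := by
    intro P
    obtain ⟨k, hk, hkp⟩ := exists_cval_pow (α := α) H (hmem P)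
    exact ⟨⟨k, hk⟩, hkp⟩
  choose f hf using hex
  -- every fibre has at most `p` elements
  have hfib : ∀ k : Fin p, (Finset.univ.filter (fun P : T => f P = k)).card ≤ p := by
    intro k
    rcases (Finset.univ.filter (fun P : T => f P = k)).eq_empty_or_nonempty with he | ⟨P₁, hP₁⟩
    · rw [he]; simp
    · rw [Finset.mem_filter] at hP₁
      -- `P ↦ P - P₁` maps the fibre injectively into the multiples of `P₀`
      have hsub : ∀ P ∈ Finset.univ.filter (fun P : T => f P = k),
          ∃ n : ℕ, n < p ∧ (P : (Wab a b).toAffine.Point) - P₁ = n • P₀ := by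
        intro P hP
        rw [Finset.mem_filter] at hP
        have hc : cval v α (P : (Wab a b).toAffine.Point)
            = cval v α (P₁ : (Wab a b).toAffine.Point) := by
          have h1 := hf P
          rw [hP.2, ← hP₁.2, ← hf P₁] at h1
          exact (pow_left_inj₀ zero_le zero_le hp.out.ne_zero).mp h1
        have hE := inE1_sub_of_cval_eq H hp1 (hmem P) (hmem P₁) hc
        exact hgen _ (by rw [smul_sub, hmem P, hmem P₁, sub_zero]) hE
      choose! g hg using hsub
      have hmaps : ∀ P ∈ Finset.univ.filter (fun P : T => f P = k), g P ∈ Finset.range p :=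
        fun P hP => Finset.mem_range.2 (hg P hP).1
      have hinj : Set.InjOn g (Finset.univ.filter (fun P : T => f P = k) : Finset T) := by
        intro P hP P' hP' hgg
        have h1 := (hg P hP).2
        have h2 := (hg P' hP').2
        rw [hgg, ← h2] at h1
        exact Subtype.ext (sub_left_injective h1)
      have := Finset.card_le_card_of_injOn g hmaps hinj
      rwa [Finset.card_range] at this
  -- hence the fibre over `1` is non-empty
  have h1p : 1 < p := hp.out.one_lt
  obtain ⟨Q', hQ'⟩ : ∃ Q' : T, f Q' = ⟨1, h1p⟩ := by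
    by_contra hne
    push Not at hne
    have hmaps : ∀ P ∈ (Finset.univ : Finset T), f P ∈ Finset.univ.erase (⟨1, h1p⟩ : Fin p) :=
      fun P _ => Finset.mem_erase.2 ⟨hne P, Finset.mem_univ _⟩
    have hlt : (Finset.univ.erase (⟨1, h1p⟩ : Fin p)).card * p < (Finset.univ : Finset T).card := by
      rw [Finset.card_erase_of_mem (Finset.mem_univ _), Finset.card_univ, Fintype.card_fin,
        Finset.card_univ, ← Nat.card_eq_fintype_card, hcard, sq]
      exact Nat.mul_lt_mul_of_pos_right (Nat.sub_lt hp.out.pos one_pos) hp.out.pos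
    obtain ⟨k, -, hk⟩ := Finset.exists_lt_card_fiber_of_mul_lt_card_of_maps_to hmaps hlt
    exact absurd (hfib k) (not_le.mpr hk)
  set Q : (Wab a b).toAffine.Point := (Q' : (Wab a b).toAffine.Point) with hQdef
  have hQp : p • Q = 0 := hmem Q'
  -- the radius of `Q`
  have hρ0 : 0 < ρ₀ := by
    rcases (zero_le (a := ρ₀)).eq_or_lt with h | h
    · rw [← h, zero_pow hp.out.ne_zero] at hρ
      exact absurd hρ hb0.ne'
    · exact h
  have hρ1 : ρ₀ < 1 := by
    by_contra hge
    rw [not_lt] at hge
    have : 1 ≤ ρ₀ ^ p := one_le_pow₀ hge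
    rw [← hρ] at this
    exact absurd H.hb (not_lt.mpr this)
  have hcQ : cval v α Q = ρ₀ ^ 2 := by
    have h1 := hf Q'
    rw [hQ'] at h1
    change cval v α (Q' : (Wab a b).toAffine.Point) ^ p = v b ^ (2 * 1) at h1
    have h2 : cval v α Q ^ p = (ρ₀ ^ 2) ^ p := by
      rw [hQdef, h1, hρ, ← pow_mul, ← pow_mul, mul_comm]
    exact (pow_left_inj₀ zero_le zero_le hp.out.ne_zero).mp h2
  have hρb : v b < ρ₀ ^ 2 := by
    rw [hρ]
    exact pow_lt_pow_right_of_lt_one₀ hρ0 hρ1 hp2
  have hρ21 : ρ₀ ^ 2 < 1 := pow_lt_one₀ zero_le hρ1 (by norm_num)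
  obtain ⟨x, s, h, hQe, hA, hx⟩ := isAlpha_of_cval H hcQ hρb hρ21
  have hQnE : ¬ InE1 v Q := by
    rw [hQe]
    change ¬ 1 < v x
    exact not_lt.mpr (le_of_lt hA.2.1)
  -- the `ZMod p`-module structure and the span
  have hkill : ∀ x : T, p • x = 0 := fun x => by
    apply Subtype.ext
    rw [AddSubmonoidClass.coe_nsmul]
    exact hmem x
  letI : Module (ZMod p) T := AddCommGroup.zmodModule hkill
  have hsmul : ∀ (c : ZMod p) (x : T), c • x = c.val • x := fun c x => by
    rw [← Nat.cast_smul_eq_nsmul (ZMod p), ZMod.natCast_zmod_val]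
  set P₀' : T := ⟨P₀, hmemT _ hP₀p⟩ with hP₀'
  have hP₀'0 : P₀' ≠ 0 := fun h => hP₀0 (congrArg Subtype.val h)
  have hQ'ne : ∀ c : ZMod p, Q' ≠ c • P₀' := by
    intro c h1
    apply hQnE
    have h3 := congrArg Subtype.val h1
    rw [hsmul, AddSubmonoidClass.coe_nsmul] at h3
    rw [hQdef, h3]
    exact inE1_nsmul H hP₀E _
  refine ⟨P₀, Q, hP₀0, hP₀p, hP₀E, hQp, ⟨x, s, h, hQe, hA, hx⟩, hgen, ?_⟩
  intro T' hT'
  obtain ⟨i, j, hij⟩ := exists_combination hcard hP₀'0 hQ'ne ⟨T', hmemT _ hT'⟩
  refine ⟨i.val, j.val, ZMod.val_lt i, ZMod.val_lt j, ?_⟩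
  have h3 := congrArg Subtype.val hij
  rw [hsmul, hsmul] at h3
  simpa using h3

end Fermat.Agent.T1B.ELocM63.Basis
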