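/-
Programme T1B (row 38 via S44), brick E-SIDE44 / ELOCM63 (helper63), file 6: INDEPENDENCE.

`Basis.indep` : in a `Basis v a b α p ρ P₀ Q` the point `Q` is independent of `P₀` modulo `p`:
`n • Q ∈ ⟨P₀⟩ → p ∣ n` (hypothesis `hindep` of `Local46/Chain.exists_delta_ne_zero`), and its transport
along an additive equivalence (`indep_of_equiv`).
-/
import Fermat.Agent.T1B.ELocM63.PeuWab

set_option autoImplicit false
set_option linter.unusedSectionVars false
set_option linter.unusedVariables false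

namespace Fermat.Agent.T1B.ELocM63.Indep

open WeierstrassCurve WeierstrassCurve.Affine Fermat.Agent.S05 Fermat.Agent.S05.CompH3
  Fermat.Agent.T1B.ESide46 Fermat.Agent.T1B.ELocM63.PeuWab

variable {K : Type*} [Field K] [DecidableEq K] {a b α : K}
variable {Γ₀ : Type*} [LinearOrderedCommGroupWithZero Γ₀] {v : Valuation K Γ₀}
variable {p : ℕ} [hp : Fact p.Prime]

/-- integer multiples of a point of `E₁` stay in `E₁`. -/
theorem inE1_zsmul (H : MultRed v a b α) {P : (Wab a b).toAffine.Point} (hP : InE1 v P) (n : ℤ) :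
    InE1 v (n • P) := by
  rcases Int.eq_nat_or_neg n with ⟨k, rfl | rfl⟩
  · rw [natCast_zsmul]; exact inE1_nsmul H hP k
  · rw [neg_smul, natCast_zsmul]
    exact KernelContract.inE1_neg v _ (inE1_nsmul H hP k)

/-- **`Q` is independent of `P₀` modulo `p`.** -/
theorem _root_.Fermat.Agent.T1B.ELocM63.PeuWab.Basis.indep (H : MultRed v a b α) {ρ : Γ₀}
    {P₀ Q : (Wab a b).toAffine.Point} (B : Basis v a b α p ρ P₀ Q) (n : ℤ)
    (hn : n • Q ∈ AddSubgroup.zmultiples P₀) : (p : ℤ) ∣ n := by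
  by_contra hdvd
  have hpZ : Prime (p : ℤ) := Nat.prime_iff_prime_int.1 hp.out
  have hcop : IsCoprime n (p : ℤ) := by
    rw [isCoprime_comm]
    exact (Prime.coprime_iff_not_dvd hpZ).2 hdvd
  obtain ⟨u, w, huw⟩ := hcop
  obtain ⟨k, hk⟩ := AddSubgroup.mem_zmultiples_iff.mp hn
  have hpQ : (p : ℤ) • Q = 0 := by rw [natCast_zsmul]; exact B.Q_tors
  have hQ : Q = (u * k) • P₀ := by
    calc Q = (1 : ℤ) • Q := (one_smul _ _).symm
      _ = (u * n + w * (p : ℤ)) • Q := by rw [huw]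
      _ = u • (n • Q) := by rw [add_smul, mul_smul u, mul_smul w, hpQ, smul_zero, add_zero]
      _ = (u * k) • P₀ := by rw [← hk, mul_smul]
  have hE : InE1 v Q := by rw [hQ]; exact inE1_zsmul H B.P₀_E1 _
  obtain ⟨x, s, h, hQe, hA, -⟩ := B.Q_alpha
  rw [hQe] at hE
  exact absurd (hE : 1 < v x) (not_lt.mpr (le_of_lt hA.2.1))

/-- transport of the independence along an additive equivalence. -/
theorem indep_of_equiv {G G' : Type*} [AddCommGroup G] [AddCommGroup G'] (e : G ≃+ G')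
    {P₀ Q : G} {p : ℕ}
    (h : ∀ n : ℤ, n • e Q ∈ AddSubgroup.zmultiples (e P₀) → (p : ℤ) ∣ n) (n : ℤ)
    (hn : n • Q ∈ AddSubgroup.zmultiples P₀) : (p : ℤ) ∣ n := by
  apply h n
  obtain ⟨k, hk⟩ := AddSubgroup.mem_zmultiples_iff.mp hn
  rw [AddSubgroup.mem_zmultiples_iff]
  exact ⟨k, by rw [← map_zsmul, hk, map_zsmul]⟩

end Fermat.Agent.T1B.ELocM63.Indep
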