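/-
Programme T1B (row 38 via S44), brick E-SIDE44 / ELOCM63 (helper63), file 5: MAIN (generic form).

`peu_mult` : `K` algebraically closed of characteristic `0`, `v : Valuation K Γ₀`, model curve
`Wab a b` with multiplicative reduction (`MultRed v a b α`), `p ≥ 5` prime, `0 < v p < 1`,
`v b = v h₀ ^ p` with `v h₀ ≤ v p` (Frey curve at `p ∣ abc`: `b = h₀ ^ p`, `h₀ ∈ ℤ`, `p ∣ h₀`).
Then there are `P₀, Q ∈ E[p]`, a primitive `p`-th root of unity `ζ` and `R ∈ K` with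
* `Basis` : `P₀` generates `E[p] ∩ E₁`, `Q` is on the `α`-branch with `v x(Q) = v h₀ ^ 2`, `(Q, P₀)` span
  `E[p]`;
* `v R = v h₀ ^ 2 * v p`;
* for every inertia-like `σ` fixing `h₀` : `σ ζ = ζ ^ χ`, `σ P₀ = χ • P₀`, `σ Q = Q + c • P₀`,
  `σ R = ζ ^ c * R`.
So the class of the extension `0 → μ_p → E[p] → ℤ/p → 0` on inertia is the Kummer class of `R ^ p`, and
`v R ∈ v(p)^ℤ` as soon as `v h₀ ∈ v(p)^ℤ`: peu ramifié (`H1U45.exists_oneUnit_of_muP_cocycle`).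
-/
import Fermat.Agent.T1B.ELocM63.Basis

set_option autoImplicit false
set_option linter.unusedSectionVars false
set_option linter.unusedVariables false
set_option linter.style.haveILetI false

namespace Fermat.Agent.T1B.ELocM63.Main

open WeierstrassCurve WeierstrassCurve.Affine Fermat.Agent.S05 Fermat.Agent.S05.CompH3
  Fermat.Agent.T1B.ESide46 Fermat.Agent.T1B.ELocM63.PeuWab Fermat.Agent.T1B.ELocM63.Galois
  Fermat.Agent.T1B.ELocM63.Basis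

variable {K : Type*} [Field K] [DecidableEq K] {a b α : K}
variable {Γ₀ : Type*} [LinearOrderedCommGroupWithZero Γ₀] {v : Valuation K Γ₀}
variable {p : ℕ} [hp : Fact p.Prime]

theorem peu_mult [IsAlgClosed K] [CharZero K] (H : MultRed v a b α) (hp5 : 5 ≤ p)
    (hp0 : 0 < v (p : K)) (hp1 : v (p : K) < 1) {h₀ : K} (hbh : v b = v h₀ ^ p)
    (hh₀ : v h₀ ≤ v (p : K)) :
    ∃ (P₀ Q : (Wab a b).toAffine.Point) (ζ R : K),
      Basis v a b α p (v h₀ ^ 2) P₀ Q ∧ IsPrimitiveRoot ζ p ∧ v R = v h₀ ^ 2 * v (p : K) ∧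
      ∀ (σ : K →+* K) (hσ : IsInert v a b σ), σ h₀ = h₀ →
        ∃ χ c : ℕ, 0 < χ ∧ χ < p ∧ c < p ∧ σ ζ = ζ ^ χ ∧ actW hσ P₀ = χ • P₀ ∧
          actW hσ Q = Q + c • P₀ ∧ σ R = ζ ^ c * R := by
  have hpK : (p : K) ≠ 0 := Nat.cast_ne_zero.mpr hp.out.ne_zero
  have hh1 : v h₀ ≤ 1 := hh₀.trans hp1.le
  -- `v b < v p ^ 2`
  have hbp : v b < v (p : K) ^ 2 := by
    rw [hbh]
    calc v h₀ ^ p ≤ v (p : K) ^ p := pow_le_pow_left₀ zero_le hh₀ p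
      _ < v (p : K) ^ 2 := pow_lt_pow_right_of_lt_one₀ hp0 hp1 (by omega)
  -- `v b ≤ (v h₀ ^ 2) ^ 2 * v p`
  have hb4 : v b ≤ (v h₀ ^ 2) ^ 2 * v (p : K) := by
    rw [hbh, ← pow_mul]
    calc v h₀ ^ p ≤ v h₀ ^ (2 * 2 + 1) := pow_le_pow_right_of_le_one' hh1 (by omega)
      _ = v h₀ ^ (2 * 2) * v h₀ := pow_succ _ _
      _ ≤ v h₀ ^ (2 * 2) * v (p : K) := by gcongr
  obtain ⟨ζ₀, hζ₀⟩ : ∃ z₀ : K, IsPrimitiveRoot z₀ p := by
    haveI : NeZero (p : K) := ⟨hpK⟩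
    exact HasEnoughRootsOfUnity.exists_primitiveRoot K p
  obtain ⟨P₀, Q, B⟩ := exists_basis (α := α) H hp0 hp1 hbp hbh
  obtain ⟨ζ, R, hζ, hR, hσ⟩ := peu_wab H hp0 hp1 hbp hζ₀ hb4 hbh B
  exact ⟨P₀, Q, ζ, R, B, hζ, hR, hσ⟩

end Fermat.Agent.T1B.ELocM63.Main
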